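import Mathlib

/-!
# 14-LOC-H, parts (U) and (D): consequences of local compactness

`L` a nontrivially normed ultrametric field with `ProperSpace L`.
* (D) the value group is discrete: there is `ϖ` with `0 < ‖ϖ‖ < 1` such that every nonzero
  `x` has `‖x‖ = ‖ϖ‖ ^ k` for some `k : ℤ`.
* (U) every subgroup of `Lˣ` containing a ball around `1` has finite index in the group of
  norm-one units.
-/

set_option linter.unusedSectionVars false

namespace Fermat.Agent.S55.LocH76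

open Filter Topology Metric

section D

variable (L : Type*) [NontriviallyNormedField L] [IsUltrametricDist L] [ProperSpace L]

/-- **(D)** discreteness of the value group of a locally compact ultrametric field. -/
theorem exists_uniformizer :
    ∃ ϖ : L, 0 < ‖ϖ‖ ∧ ‖ϖ‖ < 1 ∧ ∀ x : L, x ≠ 0 → ∃ k : ℤ, ‖x‖ = ‖ϖ‖ ^ k := by
  -- the open unit ball is compact
  have hcl : IsClosed (ball (0 : L) 1) := IsUltrametricDist.isClosed_ball 0 1
  have hcpt : IsCompact (ball (0 : L) 1) :=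
    (isCompact_closedBall (0 : L) 1).of_isClosed_subset hcl ball_subset_closedBall
  have hne : (ball (0 : L) 1).Nonempty := ⟨0, by simp⟩
  obtain ⟨ϖ, hϖm, hϖmax⟩ := hcpt.exists_isMaxOn hne (continuous_norm.continuousOn)
  have hϖ1 : ‖ϖ‖ < 1 := by simpa using hϖm
  have hmax : ∀ x : L, ‖x‖ < 1 → ‖x‖ ≤ ‖ϖ‖ := by
    intro x hx
    exact hϖmax (by simpa using hx)
  have hϖ0 : 0 < ‖ϖ‖ := by
    obtain ⟨x, hx0, hx1⟩ := NormedField.exists_norm_lt_one L
    exact lt_of_lt_of_le hx0 (hmax x hx1)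
  have hϖne : ϖ ≠ 0 := norm_pos_iff.mp hϖ0
  refine ⟨ϖ, hϖ0, hϖ1, fun x hx => ?_⟩
  have hx0 : 0 < ‖x‖ := norm_pos_iff.mpr hx
  have hy : 1 < ‖ϖ‖⁻¹ := (one_lt_inv₀ hϖ0).mpr hϖ1
  obtain ⟨n, hn1, hn2⟩ := exists_mem_Ico_zpow hx0 hy
  -- `z = x * ϖ ^ n` has norm in `[1, ‖ϖ‖⁻¹)`
  set z := x * ϖ ^ n with hz
  have hznorm : ‖z‖ = ‖x‖ * ‖ϖ‖ ^ n := by rw [hz, norm_mul, norm_zpow]
  have hpos : 0 < ‖ϖ‖ ^ n := zpow_pos hϖ0 n
  have hz1 : 1 ≤ ‖z‖ := by
    rw [hznorm]
    rw [inv_zpow, ← zpow_neg] at hn1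
    have := mul_le_mul_of_nonneg_right hn1 hpos.le
    rwa [← zpow_add₀ hϖ0.ne', neg_add_cancel, zpow_zero] at this
  have hz2 : ‖z‖ < ‖ϖ‖⁻¹ := by
    rw [hznorm]
    rw [inv_zpow, ← zpow_neg, neg_add, zpow_add₀ hϖ0.ne', zpow_neg_one] at hn2
    have := mul_lt_mul_of_pos_right hn2 hpos
    rwa [mul_assoc, mul_comm (‖ϖ‖⁻¹), ← mul_assoc, ← zpow_add₀ hϖ0.ne', neg_add_cancel,
      zpow_zero, one_mul] at this
  have hz0 : z ≠ 0 := by
    intro h; rw [h, norm_zero] at hz1; linarith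
  have hzeq : ‖z‖ = 1 := by
    by_contra hne1
    have hgt : 1 < ‖z‖ := lt_of_le_of_ne hz1 (Ne.symm hne1)
    have h1 : ‖z⁻¹‖ < 1 := by rw [norm_inv]; exact inv_lt_one_of_one_lt₀ hgt
    have h2 := hmax z⁻¹ h1
    rw [norm_inv] at h2
    have h3 : ‖ϖ‖⁻¹ ≤ ‖z‖ := by
      rw [inv_le_comm₀ hϖ0 (lt_trans zero_lt_one hgt)]
      exact h2
    linarith
  refine ⟨-n, ?_⟩
  rw [hznorm] at hzeq
  rw [zpow_neg]
  exact eq_inv_of_mul_eq_one_left hzeq

end D

section U

@[to_additive finite_quotient_of_map_add]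
theorem finite_quotient_of_map {G : Type*} [Group G] (U V : Subgroup G) {t : Type*} [Finite t]
    (c : U → t) (h : ∀ a b : U, c a = c b → (a : G)⁻¹ * b ∈ V) :
    Finite (↥U ⧸ V.subgroupOf U) := by
  refine Finite.of_injective (fun q : ↥U ⧸ V.subgroupOf U => c (Quotient.out q)) ?_
  intro q q' hqq'
  have h1 := h _ _ hqq'
  have h2 : (Quotient.out q)⁻¹ * Quotient.out q' ∈ V.subgroupOf U := by
    rw [Subgroup.mem_subgroupOf]; exact h1
  have h3 : (QuotientGroup.mk (Quotient.out q) : ↥U ⧸ V.subgroupOf U) =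
      QuotientGroup.mk (Quotient.out q') := QuotientGroup.eq.mpr h2
  simpa using h3

variable (L : Type*) [NontriviallyNormedField L] [IsUltrametricDist L]

/-- the group of units of norm one -/
def normOneUnits : Subgroup Lˣ where
  carrier := {u | ‖(u : L)‖ = 1}
  one_mem' := by simp
  mul_mem' := fun {a b} ha hb => by
    simp only [Set.mem_ofPred_eq, Units.val_mul, norm_mul] at *
    rw [ha, hb, one_mul]
  inv_mem' := fun {a} ha => by
    simp only [Set.mem_ofPred_eq, Units.val_inv_eq_inv_val, norm_inv] at *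
    rw [ha, inv_one]

variable {L}

theorem mem_normOneUnits {u : Lˣ} : u ∈ normOneUnits L ↔ ‖(u : L)‖ = 1 := Iff.rfl

variable [ProperSpace L]

/-- **(U)** an open subgroup has finite index in the norm-one units. -/
theorem finite_quotient_normOneUnits (V : Subgroup Lˣ)
    (hopen : ∃ r : ℝ, 0 < r ∧ ∀ u : Lˣ, ‖(u : L) - 1‖ ≤ r → u ∈ V) :
    Finite (↥(normOneUnits L) ⧸ V.subgroupOf (normOneUnits L)) := by
  obtain ⟨r, hr0, hr⟩ := hopen
  have htb : TotallyBounded (closedBall (0 : L) 1) := (isCompact_closedBall (0 : L) 1).totallyBounded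
  obtain ⟨t, htfin, htcov⟩ := Metric.totallyBounded_iff.mp htb r hr0
  have : Finite ↥t := htfin
  have hex : ∀ a : normOneUnits L, ∃ y : ↥t, dist ((a : Lˣ) : L) y < r := by
    intro a
    have ha : ((a : Lˣ) : L) ∈ closedBall (0 : L) 1 := by
      rw [mem_closedBall_zero_iff]; exact le_of_eq a.2
    have := htcov ha
    simp only [Set.mem_iUnion, mem_ball] at this
    obtain ⟨y, hy, hd⟩ := this
    exact ⟨⟨y, hy⟩, hd⟩
  choose c hc using hex
  refine finite_quotient_of_map (normOneUnits L) V c ?_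
  intro a b hab
  apply hr
  have hd : dist ((a : Lˣ) : L) ((b : Lˣ) : L) < r := by
    have h1 := hc a
    have h2 := hc b
    rw [hab] at h1
    rw [dist_comm] at h2
    exact lt_of_le_of_lt (IsUltrametricDist.dist_triangle_max _ _ _) (max_lt h1 h2)
  have hna : ‖((a : Lˣ) : L)‖ = 1 := a.2
  have : ((((a : Lˣ))⁻¹ * (b : Lˣ) : Lˣ) : L) - 1 =
      (((a : Lˣ) : L))⁻¹ * (((b : Lˣ) : L) - ((a : Lˣ) : L)) := by
    rw [Units.val_mul, Units.val_inv_eq_inv_val]
    field_simp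
  rw [this, norm_mul, norm_inv, hna, inv_one, one_mul, ← dist_eq_norm, dist_comm]
  exact hd.le

end U

end Fermat.Agent.S55.LocH76
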