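import Mathlib

/-!
# 14-LOC-H: `H¹` of an induced module over a finite cyclic group vanishes (coordinate form)

For `G` finite cyclic with generator `g₀` and a function `c : G → X` of total sum zero there is
`d : G → X` with `d (g₀⁻¹ σ) - d σ = c σ`, and `d` takes values in any subgroup containing the
values of `c`.
-/

namespace Fermat.Agent.S55.LocH76

open Finset

theorem sum_pow_eq_sum_univ {G : Type*} [Group G] [Fintype G] (g₀ : G)
    (hg₀ : ∀ g, g ∈ Subgroup.zpowers g₀) {X : Type*} [AddCommMonoid X] (F : G → X) :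
    ∑ l ∈ Finset.range (orderOf g₀), F (g₀ ^ l) = ∑ σ, F σ := by
  classical
  rw [← IsCyclic.image_range_orderOf hg₀, Finset.sum_image]
  intro a ha b hb hab
  exact pow_injOn_Iio_orderOf (by simpa using ha) (by simpa using hb) hab

theorem exists_cyclic_primitive {G : Type*} [Group G] [Fintype G] (g₀ : G)
    (hg₀ : ∀ g, g ∈ Subgroup.zpowers g₀) {X : Type*} [AddCommGroup X] (S : AddSubgroup X)
    (c : G → X) (hc : ∀ σ, c σ ∈ S) (hsum : ∑ σ, c σ = 0) :
    ∃ d : G → X, (∀ σ, d σ ∈ S) ∧ ∀ σ, d (g₀⁻¹ * σ) - d σ = c σ := by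
  classical
  set n := orderOf g₀ with hn
  have hnpos : 0 < n := orderOf_pos g₀
  let D : ℕ → X := fun k => - ∑ l ∈ Finset.range k, c (g₀ ^ (l + 1))
  have hDS : ∀ k, D k ∈ S := fun k => S.neg_mem (S.sum_mem (fun l _ => hc _))
  have hper : ∀ k, D (k + n) = D k := by
    intro k
    simp only [D]
    rw [Finset.sum_range_add]
    have : ∑ x ∈ Finset.range n, c (g₀ ^ (k + x + 1)) = 0 := by
      have h1 : ∀ x, c (g₀ ^ (k + x + 1)) = (fun σ => c (σ * g₀ ^ (k + 1))) (g₀ ^ x) := by
        intro x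
        simp only
        rw [← pow_add]
        congr 2
        ring
      simp_rw [h1]
      rw [sum_pow_eq_sum_univ g₀ hg₀ (fun σ => c (σ * g₀ ^ (k + 1)))]
      rw [← hsum]
      exact Fintype.sum_equiv (Equiv.mulRight (g₀ ^ (k + 1))) _ _ (fun _ => rfl)
    rw [this, add_zero]
  have hper' : ∀ t k, D (k + n * t) = D k := by
    intro t
    induction t with
    | zero => intro k; simp
    | succ t ih =>
      intro k
      rw [Nat.mul_succ, ← add_assoc, hper, ih]
  have hwd : ∀ k k', g₀ ^ k = g₀ ^ k' → D k = D k' := by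
    have key : ∀ k k', k ≤ k' → g₀ ^ k = g₀ ^ k' → D k = D k' := by
      intro k k' hkk' h
      rw [pow_eq_pow_iff_modEq] at h
      have hdvd : n ∣ k' - k := (Nat.modEq_iff_dvd' hkk').mp h
      obtain ⟨t, ht⟩ := hdvd
      have : k' = k + n * t := by omega
      rw [this, hper']
    intro k k' h
    rcases le_total k k' with hk | hk
    · exact key k k' hk h
    · exact (key k' k hk h.symm).symm
  have hex : ∀ σ : G, ∃ k : ℕ, g₀ ^ k = σ := by
    intro σ
    have := hg₀ σ
    rw [← mem_powers_iff_mem_zpowers] at this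
    exact this
  choose kk hkk using hex
  let d : G → X := fun σ => D (kk σ)
  have hd : ∀ k, d (g₀ ^ k) = D k := fun k => hwd _ _ (hkk (g₀ ^ k))
  refine ⟨d, fun σ => hDS _, ?_⟩
  intro σ
  -- write `σ = g₀ ^ (k + 1)`
  obtain ⟨k, hk⟩ : ∃ k : ℕ, g₀ ^ (k + 1) = σ := by
    refine ⟨kk σ + n - 1, ?_⟩
    have : kk σ + n - 1 + 1 = kk σ + n := by omega
    rw [this, pow_add, pow_orderOf_eq_one, mul_one, hkk]
  have h1 : g₀⁻¹ * σ = g₀ ^ k := by
    rw [← hk, pow_succ']; group
  rw [h1, ← hk, hd, hd]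
  simp only [D]
  rw [Finset.sum_range_succ]
  abel

end Fermat.Agent.S55.LocH76
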