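import Mathlib

/-!
# 14-LOC-H: Hilbert 90 for cyclic extensions, universe polymorphic

Mathlib's `groupCohomology.exists_div_of_norm_eq_one` is stated for `K L : Type` only; we
rederive the cyclic form from Noether's form
`groupCohomology.isMulCoboundary₁_of_isMulCocycle₁_of_aut_to_units`, which is universe polymorphic.
-/

namespace Fermat.Agent.S55.LocH76

open Finset

/-- a function on `ℕ` which is periodic with period `orderOf g₀` descends to the cyclic group
generated by `g₀` -/
theorem exists_fun_of_periodic {G : Type*} [Group G] [Fintype G] (g₀ : G)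
    (hg₀ : ∀ g, g ∈ Subgroup.zpowers g₀) {X : Type*} (D : ℕ → X)
    (hper : ∀ k, D (k + orderOf g₀) = D k) : ∃ d : G → X, ∀ k, d (g₀ ^ k) = D k := by
  classical
  set n := orderOf g₀ with hn
  have hper' : ∀ t k, D (k + n * t) = D k := by
    intro t
    induction t with
    | zero => intro k; simp
    | succ t ih =>
      intro k
      rw [Nat.mul_succ, ← add_assoc, hper, ih]
  have hwd : ∀ k k', g₀ ^ k = g₀ ^ k' → D k = D k' := by
    have key : ∀ k k', k ≤ k' → g₀ ^ k = g₀ ^ k' → D k = D k' := by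
      intro k k' hkk' h
      rw [pow_eq_pow_iff_modEq] at h
      have hdvd : n ∣ k' - k := (Nat.modEq_iff_dvd' hkk').mp h
      obtain ⟨t, ht⟩ := hdvd
      have : k' = k + n * t := by omega
      rw [this, hper']
    intro k k' h
    rcases le_total k k' with hk | hk
    · exact key k k' hk h
    · exact (key k' k hk h.symm).symm
  have hex : ∀ σ : G, ∃ k : ℕ, g₀ ^ k = σ := by
    intro σ
    have := hg₀ σ
    rw [← mem_powers_iff_mem_zpowers] at this
    exact this
  choose kk hkk using hex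
  exact ⟨fun σ => D (kk σ), fun k => hwd _ _ (hkk (g₀ ^ k))⟩

theorem prod_pow_eq_prod_univ {G : Type*} [Group G] [Fintype G] (g₀ : G)
    (hg₀ : ∀ g, g ∈ Subgroup.zpowers g₀) {X : Type*} [CommMonoid X] (F : G → X) :
    ∏ l ∈ Finset.range (orderOf g₀), F (g₀ ^ l) = ∏ σ, F σ := by
  classical
  rw [← IsCyclic.image_range_orderOf hg₀, Finset.prod_image]
  intro a ha b hb hab
  exact pow_injOn_Iio_orderOf (by simpa using ha) (by simpa using hb) hab

/-- an element of norm one over a finite cyclic group gives a 1-cocycle with `f g₀ = x` -/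
theorem exists_cocycle_of_norm_one {G M : Type*} [Group G] [Fintype G] [CommGroup M]
    [MulDistribMulAction G M] (g₀ : G) (hg₀ : ∀ g, g ∈ Subgroup.zpowers g₀) (x : M)
    (hx : ∏ σ : G, σ • x = 1) :
    ∃ f : G → M, (∀ g h : G, f (g * h) = g • f h * f g) ∧ f g₀ = x := by
  classical
  let D : ℕ → M := fun k => ∏ i ∈ Finset.range k, (g₀ ^ i) • x
  have hsplit : ∀ a b, D (a + b) = D a * (g₀ ^ a) • D b := by
    intro a b
    simp only [D]
    rw [Finset.prod_range_add, Finset.smul_prod']
    congr 1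
    refine Finset.prod_congr rfl (fun i _ => ?_)
    rw [pow_add, mul_smul]
  have hDn : D (orderOf g₀) = 1 := by
    simp only [D]
    rw [prod_pow_eq_prod_univ g₀ hg₀ (fun σ => σ • x), hx]
  have hper : ∀ k, D (k + orderOf g₀) = D k := by
    intro k
    rw [hsplit, hDn, smul_one, mul_one]
  obtain ⟨f, hf⟩ := exists_fun_of_periodic g₀ hg₀ D hper
  refine ⟨f, ?_, ?_⟩
  · intro g h
    obtain ⟨a, rfl⟩ : ∃ a : ℕ, g₀ ^ a = g := by
      have := hg₀ g
      rwa [← mem_powers_iff_mem_zpowers] at this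
    obtain ⟨b, rfl⟩ : ∃ b : ℕ, g₀ ^ b = h := by
      have := hg₀ h
      rwa [← mem_powers_iff_mem_zpowers] at this
    rw [← pow_add, hf, hf, hf, hsplit, mul_comm]
  · have := hf 1
    rw [pow_one] at this
    rw [this]
    simp [D]

/-- **Hilbert 90** for a finite cyclic group of automorphisms (universe polymorphic). -/
theorem hilbert90_cyclic (K L : Type*) [Field K] [Field L] [Algebra K L] [FiniteDimensional K L]
    (g₀ : L ≃ₐ[K] L) (hg₀ : ∀ σ, σ ∈ Subgroup.zpowers g₀) (x : Lˣ)
    (hx : ∏ σ : L ≃ₐ[K] L, σ • x = 1) : ∃ β : Lˣ, g₀ • β / β = x := by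
  obtain ⟨f, hf, hfg⟩ := exists_cocycle_of_norm_one g₀ hg₀ x hx
  obtain ⟨β, hβ⟩ := groupCohomology.isMulCoboundary₁_of_isMulCocycle₁_of_aut_to_units f hf
  exact ⟨β, by rw [hβ g₀, hfg]⟩

end Fermat.Agent.S55.LocH76
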