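import Mathlib

/-!
# 14-LOC-H, part (F): the filtration / limit lemma (multiplicative form, no topology)

Let `X` be a commutative group with a decreasing family of subgroups `F j`, separated and
complete in the elementary sense below, and let `f g : X →* X` with `f ∘ g = 1`, `g` preserving
the filtration.  If on every graded piece "`f x = 1` implies `x ≡ g y` modulo the next step",
then `ker f ∩ F 0 ⊆ g (F 0)`.
-/

namespace Fermat.Agent.S55.LocH76

open Finset

theorem exists_preimage_of_graded {X : Type*} [CommGroup X] (F : ℕ → Subgroup X)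
    (f g : X →* X)
    (hg : ∀ j x, x ∈ F j → g x ∈ F j)
    (hfg : ∀ x, f (g x) = 1)
    (hsep : ∀ x, (∀ j, x ∈ F j) → x = 1)
    (hcompl : ∀ y : ℕ → X, (∀ j, y j ∈ F j) →
      ∃ z ∈ F 0, ∀ k, z / ∏ j ∈ Finset.range k, y j ∈ F k)
    (hgr : ∀ j x, x ∈ F j → f x = 1 → ∃ y ∈ F j, x / g y ∈ F (j + 1)) :
    ∀ x ∈ F 0, f x = 1 → ∃ y ∈ F 0, g y = x := by
  classical
  intro x hx0 hfx
  -- the type of states: an index-free formulation via a dependent recursion
  -- state at step j: an element `x_j ∈ F j` with `f x_j = 1`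
  let S : ℕ → Type _ := fun j => {a : X // a ∈ F j ∧ f a = 1}
  have step : ∀ j (a : S j), ∃ y : X, y ∈ F j ∧ a.1 / g y ∈ F (j + 1) := by
    intro j a
    obtain ⟨y, hy, h⟩ := hgr j a.1 a.2.1 a.2.2
    exact ⟨y, hy, h⟩
  choose Y hY1 hY2 using step
  let next : ∀ j, S j → S (j + 1) := fun j a =>
    ⟨a.1 / g (Y j a), hY2 j a, by rw [map_div, a.2.2, hfg, div_one]⟩
  let st : ∀ j, S j := fun j => Nat.rec (motive := S) ⟨x, hx0, hfx⟩ next j
  have st_succ : ∀ j, (st (j + 1)).1 = (st j).1 / g (Y j (st j)) := fun j => rfl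
  let y : ℕ → X := fun j => Y j (st j)
  have hy : ∀ j, y j ∈ F j := fun j => hY1 j (st j)
  obtain ⟨z, hz0, hz⟩ := hcompl y hy
  refine ⟨z, hz0, ?_⟩
  -- `x / ∏_{j<k} g (y j) = x_k`
  have hxk : ∀ k, x / ∏ j ∈ Finset.range k, g (y j) = (st k).1 := by
    intro k
    induction k with
    | zero => simp [st]
    | succ k ih =>
      rw [Finset.prod_range_succ, st_succ, ← ih, div_div]
  have hmem : ∀ k, x / g z ∈ F k := by
    intro k
    have h1 : g (z / ∏ j ∈ Finset.range k, y j) ∈ F k := hg k _ (hz k)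
    have h2 : x / ∏ j ∈ Finset.range k, g (y j) ∈ F k := by
      rw [hxk k]; exact (st k).2.1
    have h3 : x / g z = (x / ∏ j ∈ Finset.range k, g (y j)) /
        g (z / ∏ j ∈ Finset.range k, y j) := by
      rw [map_div, map_prod]
      rw [div_div_div_comm, div_self', div_one]
    rw [h3]
    exact (F k).div_mem h2 h1
  have := hsep _ hmem
  exact (div_eq_one.mp this).symm

end Fermat.Agent.S55.LocH76
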