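import Fermat.Agent.S55.LocH76.Units
import Fermat.Agent.S55.LocH76.Filtration

/-!
# 14-LOC-H, part (V): an open, Galois-stable, cohomologically trivial subgroup of units

`L/K` finite Galois with cyclic group generated by `g₀`, `L` a complete ultrametric normed field
on which `Gal(L/K)` acts by isometries.  Then there is an open Galois-stable subgroup
`V ≤ {‖u‖ = 1}` of `Lˣ` with `Ĥ⁰(G, V) = Ĥ¹(G, V) = 0` (elementary form).
-/

set_option linter.unusedSectionVars false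

namespace Fermat.Agent.S55.LocH76

open IsUltrametricDist Finset Filter Topology
open scoped NNReal

variable {K L : Type*} [Field K] [NontriviallyNormedField L] [IsUltrametricDist L]
  [Algebra K L] [FiniteDimensional K L] [IsGalois K L] [IsoGal K L]

/-- the `σ`-th coordinate as an additive map `L →+ L` -/
noncomputable def coordHom (K : Type*) {L : Type*} [Field K] [NontriviallyNormedField L]
    [Algebra K L] [FiniteDimensional K L] [IsGalois K L] (σ : L ≃ₐ[K] L) : L →+ L where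
  toFun x := algebraMap K L (coord K L x σ)
  map_zero' := by rw [coord_zero, map_zero]
  map_add' x y := by rw [coord_add, map_add]

theorem continuous_coordHom (σ : L ≃ₐ[K] L) : Continuous (coordHom K σ) := by
  refine AddMonoidHomClass.continuous_of_bound (coordHom K σ) (cD K L : ℝ) ?_
  intro x
  have := coord_bound (K := K) x σ
  exact_mod_cast this

theorem isClosed_A (s : ℝ≥0) : IsClosed (A K L s : Set L) := by
  have : (A K L s : Set L) = ⋂ σ : L ≃ₐ[K] L, (fun x => ‖coordHom K σ x‖₊) ⁻¹' Set.Iic s := by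
    ext x
    simp only [SetLike.mem_coe, Set.mem_iInter, Set.mem_preimage, Set.mem_Iic]
    rfl
  rw [this]
  exact isClosed_iInter fun σ =>
    isClosed_Iic.preimage (continuous_nnnorm.comp (continuous_coordHom σ))

/-- the subgroup `1 + A r` of `Lˣ` -/
def V {ρ r : ℝ≥0} (h : Small K L ρ r) : Subgroup Lˣ where
  carrier := {u | (u : L) - 1 ∈ A K L r}
  one_mem' := by simp
  mul_mem' := fun {a b} ha hb => by
    simpa using (mul_sub_one_mem h ha hb).1
  inv_mem' := fun {a} ha => by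
    simpa using inv_sub_one_mem h ha

theorem mem_V {ρ r : ℝ≥0} (h : Small K L ρ r) {u : Lˣ} :
    u ∈ V h ↔ (u : L) - 1 ∈ A K L r := Iff.rfl

theorem V_mono {ρ r r' : ℝ≥0} (h : Small K L ρ r) (h' : Small K L ρ r') (hr : r' ≤ r) :
    V h' ≤ V h := fun _ hu => A_mono hr hu

theorem exists_small (ρ : ℝ≥0) (hρ0 : 0 < ρ) (hρ1 : ρ ≤ 1) : ∃ ε : ℝ≥0, 0 < ε ∧ Small K L ρ ε := by
  set Q : ℝ≥0 := 1 + cC K L + cT K L + cC K L * cD K L * cT K L with hQ
  have hQ1 : 1 ≤ Q := by rw [hQ, add_assoc, add_assoc]; exact le_self_add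
  have hQ0 : Q ≠ 0 := (lt_of_lt_of_le zero_lt_one hQ1).ne'
  have hεQ : ρ / Q * Q = ρ := div_mul_cancel₀ ρ hQ0
  have hε1 : ρ / Q ≤ 1 := by
    rw [div_le_iff₀ (lt_of_lt_of_le zero_lt_one hQ1)]
    calc ρ ≤ 1 := hρ1
      _ ≤ 1 * Q := by rw [one_mul]; exact hQ1
  refine ⟨ρ / Q, div_pos hρ0 (lt_of_lt_of_le zero_lt_one hQ1), hρ1, ?_, ?_, ?_⟩
  · calc cC K L * (ρ / Q) ≤ Q * (ρ / Q) := by
          apply mul_le_mul_left
          rw [hQ]; exact (le_add_self).trans (le_self_add.trans le_self_add)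
      _ = ρ := by rw [mul_comm]; exact hεQ
  · by_cases hT : cT K L = 0
    · rw [hT, mul_zero]; exact zero_lt_one
    · calc ρ / Q * cT K L < ρ / Q * Q := by
            apply mul_lt_mul_of_pos_left _ (div_pos hρ0 (lt_of_lt_of_le zero_lt_one hQ1))
            rw [hQ]
            calc cT K L < 1 + cT K L := lt_one_add _
              _ ≤ 1 + cC K L + cT K L := by
                  rw [add_assoc]; exact add_le_add_right (le_add_self) _
              _ ≤ _ := le_self_add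
        _ = ρ := hεQ
        _ ≤ 1 := hρ1
  · calc cC K L * cD K L * cT K L * (ρ / Q) ≤ Q * (ρ / Q) := by
          apply mul_le_mul_left
          rw [hQ]; exact le_add_self
      _ = ρ := by rw [mul_comm]; exact hεQ
      _ ≤ 1 := hρ1

/-- the norm endomorphism of `Lˣ` -/
noncomputable def normU (K : Type*) {L : Type*} [Field K] [Field L]
    [Algebra K L] [FiniteDimensional K L] : Lˣ →* Lˣ :=
  ∏ σ : L ≃ₐ[K] L, Units.map (σ : L →* L)

/-- the endomorphism `u ↦ g₀ u / u` of `Lˣ` -/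
noncomputable def augU {K : Type*} {L : Type*} [Field K] [Field L]
    [Algebra K L] (g₀ : L ≃ₐ[K] L) : Lˣ →* Lˣ :=
  Units.map (g₀ : L →* L) / MonoidHom.id Lˣ

theorem coe_normU (u : Lˣ) : ((normU K u : Lˣ) : L) = ∏ σ : L ≃ₐ[K] L, σ (u : L) := by
  unfold normU
  rw [MonoidHom.finsetProd_apply, Units.coe_prod]
  rfl

theorem coe_augU (g₀ : L ≃ₐ[K] L) (u : Lˣ) : ((augU g₀ u : Lˣ) : L) = g₀ (u : L) / u := by
  unfold augU
  rw [MonoidHom.div_apply, Units.val_div_eq_div_val]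
  rfl

theorem augU_normU (g₀ : L ≃ₐ[K] L) (u : Lˣ) : augU g₀ (normU K u) = 1 := by
  apply Units.ext
  rw [coe_augU, coe_normU, Units.val_one, map_prod]
  have : ∏ σ : L ≃ₐ[K] L, g₀ (σ (u : L)) = ∏ σ : L ≃ₐ[K] L, σ (u : L) :=
    Fintype.prod_equiv (Equiv.mulLeft g₀) _ _ (fun σ => rfl)
  rw [this, div_self]
  rw [← coe_normU]; exact Units.ne_zero _

theorem normU_mem_V {ρ r : ℝ≥0} (h : Small K L ρ r) {u : Lˣ} (hu : u ∈ V h) :
    normU K u ∈ V h := by
  rw [mem_V, coe_normU]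
  exact (prod_sub_one_mem h hu Finset.univ).1

theorem map_mem_V {ρ r : ℝ≥0} (h : Small K L ρ r) (σ : L ≃ₐ[K] L) {u : Lˣ} (hu : u ∈ V h) :
    Units.map (σ : L →* L) u ∈ V h := by
  rw [mem_V]
  have := apply_mem_A σ hu
  rwa [map_sub, map_one] at this

variable [CompleteSpace L]

/-- elementary completeness of the filtration `V (r ρ^j)` -/
theorem V_complete {ρ r : ℝ≥0} (hρ : ρ < 1) (h : Small K L ρ r) (y : ℕ → Lˣ)
    (hy : ∀ j, y j ∈ V (h.mul_rho_pow j)) :
    ∃ z ∈ V (h.mul_rho_pow 0), ∀ k, z / ∏ j ∈ Finset.range k, y j ∈ V (h.mul_rho_pow k) := by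
  have hmono : ∀ {j k : ℕ}, k ≤ j → r * ρ ^ j ≤ r * ρ ^ k := fun {j k} hkj =>
    mul_le_mul_right (pow_le_pow_of_le_one zero_le h.rho_le hkj) _
  have hy0 : ∀ j, y j ∈ V (h.mul_rho_pow 0) := fun j =>
    V_mono (h.mul_rho_pow 0) (h.mul_rho_pow j) (hmono (Nat.zero_le j)) (hy j)
  set P : ℕ → Lˣ := fun k => ∏ j ∈ Finset.range k, y j with hP
  set a : ℕ → L := fun k => ((P k : Lˣ) : L) with ha
  have hP0 : ∀ k, P k ∈ V (h.mul_rho_pow 0) := fun k => Subgroup.prod_mem _ (fun j _ => hy0 j)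
  have hnorm : ∀ k, ‖a k‖ = 1 := fun k => norm_eq_one_of_sub_one_mem (h.mul_rho_pow 0) (hP0 k)
  -- consecutive differences tend to zero
  have hdiff : Tendsto (fun k => a (k + 1) - a k) atTop (𝓝 0) := by
    rw [tendsto_zero_iff_norm_tendsto_zero]
    have hbound : ∀ k, ‖a (k + 1) - a k‖ ≤ (r * cT K L : ℝ≥0) * (ρ : ℝ) ^ k := by
      intro k
      have h1 : a (k + 1) - a k = a k * ((y k : L) - 1) := by
        simp only [ha, hP, Finset.prod_range_succ, Units.val_mul]; ring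
      rw [h1, norm_mul, hnorm, one_mul]
      have := nnnorm_le_of_mem_A (hy k)
      have h2 : (‖(y k : L) - 1‖₊ : ℝ) ≤ ((r * ρ ^ k * cT K L : ℝ≥0) : ℝ) := by exact_mod_cast this
      calc ‖(y k : L) - 1‖ ≤ ((r * ρ ^ k * cT K L : ℝ≥0) : ℝ) := h2
        _ = (r * cT K L : ℝ≥0) * (ρ : ℝ) ^ k := by push_cast; ring
    have hlim : Tendsto (fun k : ℕ => ((r * cT K L : ℝ≥0) : ℝ) * (ρ : ℝ) ^ k) atTop (𝓝 0) := by
      have := tendsto_pow_atTop_nhds_zero_of_lt_one (r := (ρ : ℝ)) ρ.coe_nonneg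
        (by exact_mod_cast hρ)
      simpa using this.const_mul ((r * cT K L : ℝ≥0) : ℝ)
    exact squeeze_zero (fun k => norm_nonneg _) hbound hlim
  have hcauchy : CauchySeq a := NonarchimedeanAddGroup.cauchySeq_of_tendsto_sub_nhds_zero hdiff
  obtain ⟨z₀, hz₀⟩ := cauchySeq_tendsto_of_complete hcauchy
  -- the key membership for every `k`
  have hkey : ∀ k, z₀ / a k - 1 ∈ A K L (r * ρ ^ k) := by
    intro k
    have ht : Tendsto (fun l => a l / a k - 1) atTop (𝓝 (z₀ / a k - 1)) :=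
      (hz₀.div_const (a k)).sub_const 1
    refine (isClosed_A (K := K) (r * ρ ^ k)).mem_of_tendsto ht ?_
    filter_upwards [eventually_ge_atTop k] with l hl
    have h1 : P l / P k = ∏ j ∈ Finset.Ico k l, y j := (Finset.prod_Ico_eq_div _ hl).symm
    have h2 : P l / P k ∈ V (h.mul_rho_pow k) := by
      rw [h1]
      refine Subgroup.prod_mem _ (fun j hj => ?_)
      exact V_mono (h.mul_rho_pow k) (h.mul_rho_pow j) (hmono (Finset.mem_Ico.mp hj).1) (hy j)
    rw [mem_V, Units.val_div_eq_div_val] at h2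
    exact h2
  have hz₀A : z₀ - 1 ∈ A K L (r * ρ ^ 0) := by
    have := hkey 0
    simpa [ha, hP] using this
  have hz₀0 : z₀ ≠ 0 := ne_zero_of_sub_one_mem (h.mul_rho_pow 0) hz₀A
  refine ⟨Units.mk0 z₀ hz₀0, hz₀A, fun k => ?_⟩
  rw [mem_V, Units.val_div_eq_div_val]
  exact hkey k

theorem V_sep {ρ r : ℝ≥0} (hρ : ρ < 1) (h : Small K L ρ r) (u : Lˣ)
    (hu : ∀ j, u ∈ V (h.mul_rho_pow j)) : u = 1 := by
  have hbound : ∀ k : ℕ, ‖(u : L) - 1‖ ≤ ((r * cT K L : ℝ≥0) : ℝ) * (ρ : ℝ) ^ k := by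
    intro k
    have := nnnorm_le_of_mem_A (hu k)
    have h2 : (‖(u : L) - 1‖₊ : ℝ) ≤ ((r * ρ ^ k * cT K L : ℝ≥0) : ℝ) := by exact_mod_cast this
    calc ‖(u : L) - 1‖ ≤ ((r * ρ ^ k * cT K L : ℝ≥0) : ℝ) := h2
      _ = (r * cT K L : ℝ≥0) * (ρ : ℝ) ^ k := by push_cast; ring
  have hlim : Tendsto (fun k : ℕ => ((r * cT K L : ℝ≥0) : ℝ) * (ρ : ℝ) ^ k) atTop (𝓝 0) := by
    have := tendsto_pow_atTop_nhds_zero_of_lt_one (r := (ρ : ℝ)) ρ.coe_nonneg
      (by exact_mod_cast hρ)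
    simpa using this.const_mul ((r * cT K L : ℝ≥0) : ℝ)
  have h0 : ‖(u : L) - 1‖ ≤ 0 := ge_of_tendsto' hlim hbound
  have h1 : (u : L) - 1 = 0 := norm_le_zero_iff.mp h0
  apply Units.ext
  rw [Units.val_one]
  exact sub_eq_zero.mp h1

/-- **(V)** existence of an open, Galois-stable, cohomologically trivial subgroup of units. -/
theorem exists_open_cohomologically_trivial_subgroup
    (K L : Type*) [Field K] [NontriviallyNormedField L] [IsUltrametricDist L] [CompleteSpace L]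
    [Algebra K L] [FiniteDimensional K L] [IsGalois K L]
    (hiso : ∀ (σ : L ≃ₐ[K] L) (x : L), ‖σ x‖ = ‖x‖)
    (g₀ : L ≃ₐ[K] L) (hg₀ : ∀ σ, σ ∈ Subgroup.zpowers g₀) :
    ∃ V : Subgroup Lˣ,
      (∀ u ∈ V, ‖(u : L)‖ = 1) ∧
      (∃ r : ℝ, 0 < r ∧ ∀ u : Lˣ, ‖(u : L) - 1‖ ≤ r → u ∈ V) ∧
      (∀ (σ : L ≃ₐ[K] L) (u : Lˣ), u ∈ V → Units.map (σ : L →* L) u ∈ V) ∧
      (∀ u ∈ V, (∀ σ : L ≃ₐ[K] L, σ (u : L) = u) →
        ∃ y ∈ V, ∏ σ : L ≃ₐ[K] L, σ (y : L) = u) ∧
      (∀ u ∈ V, ∏ σ : L ≃ₐ[K] L, σ (u : L) = 1 → ∃ y ∈ V, g₀ (y : L) / y = u) := by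
  have : IsoGal K L := ⟨hiso⟩
  set ρ : ℝ≥0 := 1 / 2 with hρdef
  have hρ0 : 0 < ρ := by rw [hρdef]; positivity
  have hρ1 : ρ < 1 := by rw [hρdef]; exact half_lt_self zero_lt_one
  obtain ⟨ε, hε0, hε⟩ := exists_small (K := K) (L := L) ρ hρ0 hρ1.le
  -- the filtration
  let F : ℕ → Subgroup Lˣ := fun j => V (hε.mul_rho_pow j)
  have hF0 : ∀ u : Lˣ, u ∈ F 0 ↔ u ∈ V hε := by
    intro u
    change (u : L) - 1 ∈ A K L (ε * ρ ^ 0) ↔ (u : L) - 1 ∈ A K L ε
    rw [pow_zero, mul_one]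
  have hFsucc : ∀ j (u : Lˣ), (u : L) - 1 ∈ A K L (ε * ρ ^ j * ρ) → u ∈ F (j + 1) := by
    intro j u hu
    change (u : L) - 1 ∈ A K L (ε * ρ ^ (j + 1))
    rwa [pow_succ, ← mul_assoc]
  have hsep : ∀ x : Lˣ, (∀ j, x ∈ F j) → x = 1 := fun x hx => V_sep hρ1 hε x hx
  have hcompl : ∀ y : ℕ → Lˣ, (∀ j, y j ∈ F j) →
      ∃ z ∈ F 0, ∀ k, z / ∏ j ∈ Finset.range k, y j ∈ F k := fun y hy => V_complete hρ1 hε y hy
  refine ⟨V hε, ?_, ?_, ?_, ?_, ?_⟩
  · intro u hu
    exact norm_eq_one_of_sub_one_mem hε hu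
  · refine ⟨(ε : ℝ) / cD K L, ?_, ?_⟩
    · have h1 : (0 : ℝ) < cD K L := by
        exact_mod_cast lt_of_lt_of_le zero_lt_one (cD_one_le (K := K) (L := L))
      exact div_pos (by exact_mod_cast hε0) h1
    · intro u hu
      rw [mem_V]
      apply mem_A_of_nnnorm_le
      have h1 : (0 : ℝ) < cD K L := by
        exact_mod_cast lt_of_lt_of_le zero_lt_one (cD_one_le (K := K) (L := L))
      rw [le_div_iff₀ h1] at hu
      have : ((cD K L * ‖(u : L) - 1‖₊ : ℝ≥0) : ℝ) ≤ (ε : ℝ) := by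
        push_cast; rw [mul_comm]; exact hu
      exact_mod_cast this
  · intro σ u hu
    exact map_mem_V hε σ hu
  · -- Ĥ⁰
    intro u hu hfix
    have key := exists_preimage_of_graded F (augU g₀) (normU K)
      (fun j x hx => normU_mem_V _ hx) (fun x => augU_normU g₀ x) hsep hcompl
      (by
        intro j x hx hfx
        have hfix' : ∀ τ : L ≃ₐ[K] L, τ (x : L) = x := by
          have h1 : g₀ (x : L) = x := by
            have := congrArg (fun v : Lˣ => (v : L)) hfx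
            simp only [coe_augU, Units.val_one] at this
            rwa [div_eq_one_iff_eq (Units.ne_zero x)] at this
          intro τ
          have hτ := hg₀ τ
          rw [Subgroup.mem_zpowers_iff] at hτ
          obtain ⟨k, rfl⟩ := hτ
          have hfixset : g₀ ∈ MulAction.stabilizer (L ≃ₐ[K] L) (x : L) := by
            rw [MulAction.mem_stabilizer_iff]; exact h1
          have := (MulAction.stabilizer (L ≃ₐ[K] L) (x : L)).zpow_mem hfixset k
          rw [MulAction.mem_stabilizer_iff] at this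
          exact this
        obtain ⟨y, hy1, hy2⟩ := graded_H0 (hε.mul_rho_pow j) hx hfix'
        have hy0 : y ≠ 0 := ne_zero_of_sub_one_mem (hε.mul_rho_pow j) hy1
        refine ⟨Units.mk0 y hy0, hy1, hFsucc j _ ?_⟩
        rw [Units.val_div_eq_div_val, coe_normU]
        refine div_sub_one_mem (hε.mul_rho_pow j) ?_ hy2
        exact (prod_sub_one_mem (hε.mul_rho_pow j) hy1 Finset.univ).1)
      u ((hF0 u).mpr hu)
      (by
        apply Units.ext
        rw [coe_augU, Units.val_one, hfix g₀, div_self (Units.ne_zero u)])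
    obtain ⟨y, hy, hyu⟩ := key
    refine ⟨y, (hF0 y).mp hy, ?_⟩
    rw [← coe_normU, hyu]
  · -- Ĥ¹
    intro u hu hN
    have hgaug : ∀ j (x : Lˣ), x ∈ F j → augU g₀ x ∈ F j := by
      intro j x hx
      have h1 : Units.map (g₀ : L →* L) x ∈ F j := map_mem_V _ g₀ hx
      have : augU g₀ x = Units.map (g₀ : L →* L) x / x := rfl
      rw [this]
      exact (F j).div_mem h1 hx
    have hNaug : ∀ x : Lˣ, normU K (augU g₀ x) = 1 := by
      intro x
      have : augU g₀ x = Units.map (g₀ : L →* L) x / x := rfl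
      rw [this, map_div]
      have h2 : normU K (Units.map (g₀ : L →* L) x) = normU K x := by
        apply Units.ext
        rw [coe_normU, coe_normU]
        exact Fintype.prod_equiv (Equiv.mulRight g₀) _ _ (fun σ => rfl)
      rw [h2, div_self']
    have key := exists_preimage_of_graded F (normU K) (augU g₀) hgaug hNaug hsep hcompl
      (by
        intro j x hx hfx
        have hN' : ∏ σ : L ≃ₐ[K] L, σ (x : L) = 1 := by
          rw [← coe_normU, hfx, Units.val_one]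
        obtain ⟨y, hy1, hy2⟩ := graded_H1 g₀ hg₀ (hε.mul_rho_pow j) hx hN'
        have hy0 : y ≠ 0 := ne_zero_of_sub_one_mem (hε.mul_rho_pow j) hy1
        refine ⟨Units.mk0 y hy0, hy1, hFsucc j _ ?_⟩
        rw [Units.val_div_eq_div_val, coe_augU]
        refine div_sub_one_mem (hε.mul_rho_pow j) ?_ hy2
        have h1 : Units.mk0 y hy0 ∈ F j := hy1
        have h2 := hgaug j _ h1
        rw [mem_V, coe_augU] at h2
        exact h2)
      u ((hF0 u).mpr hu)
      (by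
        apply Units.ext
        rw [coe_normU, Units.val_one, hN])
    obtain ⟨y, hy, hyu⟩ := key
    refine ⟨y, (hF0 y).mp hy, ?_⟩
    rw [← coe_augU, hyu]

end Fermat.Agent.S55.LocH76
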