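import Fermat.Agent.S55.HerbrandCyclic54
import Fermat.Agent.S55.LocH76.Trivial
import Fermat.Agent.S55.LocH76.Compact
import Fermat.Agent.S55.LocH76.Cyclic2

/-!
# 14-LOC-H, part (H): the Herbrand quotient of `Lˣ` for a cyclic extension of local fields

`h(Lˣ) = [L:K]`, `Ĥ¹ = 0` (Hilbert 90), hence `|Ĥ⁰(G, Lˣ)| = [L:K]`.
-/

set_option linter.unusedSectionVars false

namespace Fermat.Agent.S55.LocH76

open Fermat.Agent.S55.Herbrand54 Fermat.Agent.S55.HerbrandCyclic54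

section Rho

variable (K L : Type*) [Field K] [Field L] [Algebra K L]

/-- the Galois action on `Additive Lˣ` -/
noncomputable def rhoU : (L ≃ₐ[K] L) →* AddMonoid.End (Additive Lˣ) where
  toFun σ := MonoidHom.toAdditive (Units.map (σ : L →* L))
  map_one' := by
    ext u
    rfl
  map_mul' σ τ := by
    ext u
    rfl

variable {K L}

theorem rhoU_apply (σ : L ≃ₐ[K] L) (u : Lˣ) :
    rhoU K L σ (Additive.ofMul u) = Additive.ofMul (Units.map (σ : L →* L) u) := rfl

/-- additive subgroup attached to a subgroup of units -/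
def addOf (H : Subgroup Lˣ) : AddSubgroup (Additive Lˣ) := Subgroup.toAddSubgroup H

theorem mem_addOf (H : Subgroup Lˣ) (x : Additive Lˣ) : x ∈ addOf H ↔ Additive.toMul x ∈ H :=
  Iff.rfl

variable [FiniteDimensional K L]

theorem normHom_rhoU (u : Lˣ) :
    HerbrandCyclic54.normHom (rhoU K L) (Additive.ofMul u) = Additive.ofMul (normU K u) := by
  rw [HerbrandCyclic54.normHom_apply]
  unfold normU
  rw [MonoidHom.finsetProd_apply, ofMul_prod]
  rfl

theorem cyclicPair_f_rhoU (g₀ : L ≃ₐ[K] L) (u : Lˣ) :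
    (cyclicPair (rhoU K L) g₀).f (Additive.ofMul u) = Additive.ofMul (augU g₀ u) := rfl

end Rho

section Ord

variable {L : Type*} [NormedField L] (ϖ : L)
  (hdisc : ∀ x : L, x ≠ 0 → ∃ k : ℤ, ‖x‖ = ‖ϖ‖ ^ k)

/-- the normalised valuation of a unit -/
noncomputable def ordFun (u : Lˣ) : ℤ := Classical.choose (hdisc u u.ne_zero)

theorem ordFun_spec (u : Lˣ) : ‖(u : L)‖ = ‖ϖ‖ ^ ordFun ϖ hdisc u :=
  Classical.choose_spec (hdisc u u.ne_zero)

variable (h0 : 0 < ‖ϖ‖) (h1 : ‖ϖ‖ < 1)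

include h0 h1 in
theorem ordFun_unique (u : Lˣ) (k : ℤ) (h : ‖(u : L)‖ = ‖ϖ‖ ^ k) : ordFun ϖ hdisc u = k := by
  have := ordFun_spec ϖ hdisc u
  rw [h] at this
  exact (zpow_right_injective₀ h0 (ne_of_lt h1) this).symm

/-- the valuation as an additive map -/
noncomputable def ordHom : Additive Lˣ →+ ℤ :=
  AddMonoidHom.mk' (fun x => ordFun ϖ hdisc (Additive.toMul x)) (by
    intro a b
    apply ordFun_unique ϖ hdisc h0 h1
    rw [toMul_add, Units.val_mul, norm_mul, ordFun_spec ϖ hdisc (Additive.toMul a),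
      ordFun_spec ϖ hdisc (Additive.toMul b), zpow_add₀ h0.ne'])

theorem ordHom_apply (x : Additive Lˣ) :
    ordHom ϖ hdisc h0 h1 x = ordFun ϖ hdisc (Additive.toMul x) := rfl

theorem ordHom_eq_of_norm_eq (x y : Additive Lˣ)
    (h : ‖((Additive.toMul x : Lˣ) : L)‖ = ‖((Additive.toMul y : Lˣ) : L)‖) :
    ordHom ϖ hdisc h0 h1 x = ordHom ϖ hdisc h0 h1 y := by
  rw [ordHom_apply, ordHom_apply]
  apply ordFun_unique ϖ hdisc h0 h1
  rw [h]
  exact ordFun_spec ϖ hdisc _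

theorem ordHom_eq_zero_iff (x : Additive Lˣ) :
    ordHom ϖ hdisc h0 h1 x = 0 ↔ ‖((Additive.toMul x : Lˣ) : L)‖ = 1 := by
  rw [ordHom_apply]
  constructor
  · intro h
    rw [ordFun_spec ϖ hdisc, h, zpow_zero]
  · intro h
    apply ordFun_unique ϖ hdisc h0 h1
    rw [h, zpow_zero]

theorem ordHom_uniformizer :
    ordHom ϖ hdisc h0 h1 (Additive.ofMul (Units.mk0 ϖ (norm_pos_iff.mp h0))) = 1 := by
  rw [ordHom_apply]
  apply ordFun_unique ϖ hdisc h0 h1
  simp

theorem ordHom_surjective : Function.Surjective (ordHom ϖ hdisc h0 h1) := by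
  intro k
  refine ⟨k • Additive.ofMul (Units.mk0 ϖ (norm_pos_iff.mp h0)), ?_⟩
  rw [map_zsmul, ordHom_uniformizer, smul_eq_mul, mul_one]

end Ord

section General

variable {B : Type*} [AddCommGroup B]

theorem subsingleton_H0_of_forall (Q : Pair B) (h : ∀ x, Q.f x = 0 → ∃ y, Q.g y = x) :
    Subsingleton Q.H0 := by
  refine subsingleton_of_forall_eq 0 fun z => ?_
  obtain ⟨x, hx, rfl⟩ := Q.cls_surj z
  rw [Pair.cls_eq_zero_iff]
  exact h x hx

theorem subsingleton_H1_of_forall (Q : Pair B) (h : ∀ x, Q.g x = 0 → ∃ y, Q.f y = x) :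
    Subsingleton Q.H1 := subsingleton_H0_of_forall Q.swap h

theorem isDefined_of_subsingleton (Q : Pair B) (h0 : Subsingleton Q.H0) (h1 : Subsingleton Q.H1) :
    Q.IsDefined := ⟨inferInstance, inferInstance⟩

theorem q_of_subsingleton (Q : Pair B) (h0 : Subsingleton Q.H0) (h1 : Subsingleton Q.H1) :
    Q.q = 1 := by
  unfold Pair.q
  rw [Nat.card_unique, Nat.card_unique]
  norm_num

end General

section Stable

variable {K L : Type*} [Field K] [Field L] [Algebra K L] [FiniteDimensional K L]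

theorem rhoU_mem_addOf (H : Subgroup Lˣ)
    (hH : ∀ (σ : L ≃ₐ[K] L) (u : Lˣ), u ∈ H → Units.map (σ : L →* L) u ∈ H)
    (σ : L ≃ₐ[K] L) (x : Additive Lˣ) (hx : x ∈ addOf H) : rhoU K L σ x ∈ addOf H :=
  hH σ _ hx

theorem stable_f (H : Subgroup Lˣ)
    (hH : ∀ (σ : L ≃ₐ[K] L) (u : Lˣ), u ∈ H → Units.map (σ : L →* L) u ∈ H)
    (g₀ : L ≃ₐ[K] L) : ∀ x ∈ addOf H, (cyclicPair (rhoU K L) g₀).f x ∈ addOf H := by
  intro x hx
  rw [cyclicPair_f_apply]
  exact (addOf H).sub_mem (rhoU_mem_addOf H hH g₀ x hx) hx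

theorem stable_g (H : Subgroup Lˣ)
    (hH : ∀ (σ : L ≃ₐ[K] L) (u : Lˣ), u ∈ H → Units.map (σ : L →* L) u ∈ H)
    (g₀ : L ≃ₐ[K] L) : ∀ x ∈ addOf H, (cyclicPair (rhoU K L) g₀).g x ∈ addOf H := by
  intro x hx
  rw [cyclicPair_g_apply, HerbrandCyclic54.normHom_apply]
  exact (addOf H).sum_mem (fun σ _ => rhoU_mem_addOf H hH σ x hx)

/-- Hilbert 90: `Ĥ¹(G, Lˣ) = 0` for the cyclic pair -/
theorem subsingleton_H1_units (g₀ : L ≃ₐ[K] L) (hg₀ : ∀ σ, σ ∈ Subgroup.zpowers g₀) :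
    Subsingleton (cyclicPair (rhoU K L) g₀).H1 := by
  apply subsingleton_H1_of_forall
  intro x hx
  have hx' : Additive.ofMul (normU K (Additive.toMul x)) = 0 := by
    rw [← normHom_rhoU]; exact hx
  have hN : ∏ σ : L ≃ₐ[K] L, σ • (Additive.toMul x) = 1 := by
    have h1 : normU K (Additive.toMul x) = 1 := hx'
    unfold normU at h1
    rw [MonoidHom.finsetProd_apply] at h1
    exact h1
  obtain ⟨β, hβ⟩ := hilbert90_cyclic K L g₀ hg₀ (Additive.toMul x) hN
  refine ⟨Additive.ofMul β, ?_⟩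
  rw [cyclicPair_f_rhoU]
  have : augU g₀ β = Additive.toMul x := hβ
  rw [this]
  rfl

end Stable

section Main

variable (K L : Type*) [Field K] [NontriviallyNormedField L] [IsUltrametricDist L] [ProperSpace L]
  [Algebra K L] [FiniteDimensional K L] [IsGalois K L]

/-- the units of norm one have Herbrand quotient `1` -/
theorem herbrand_normOneUnits (hiso : ∀ (σ : L ≃ₐ[K] L) (x : L), ‖σ x‖ = ‖x‖)
    (g₀ : L ≃ₐ[K] L) (hg₀ : ∀ σ, σ ∈ Subgroup.zpowers g₀)
    (hfU : ∀ x ∈ addOf (normOneUnits L), (cyclicPair (rhoU K L) g₀).f x ∈ addOf (normOneUnits L))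
    (hgU : ∀ x ∈ addOf (normOneUnits L),
      (cyclicPair (rhoU K L) g₀).g x ∈ addOf (normOneUnits L)) :
    ((cyclicPair (rhoU K L) g₀).restrict (addOf (normOneUnits L)) hfU hgU).IsDefined ∧
      ((cyclicPair (rhoU K L) g₀).restrict (addOf (normOneUnits L)) hfU hgU).q = 1 := by
  have hIso : IsoGal K L := ⟨hiso⟩
  obtain ⟨V, hV1, hVopen, hVstab, hVH0, hVH1⟩ :=
    exists_open_cohomologically_trivial_subgroup K L hiso g₀ hg₀
  set P := cyclicPair (rhoU K L) g₀ with hP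
  set Uadd := addOf (normOneUnits L) with hUadd
  set PU := P.restrict Uadd hfU hgU with hPU
  have hVU : addOf V ≤ Uadd := fun x hx => hV1 _ hx
  set A'' : AddSubgroup ↥Uadd := (addOf V).addSubgroupOf Uadd with hA''
  -- finite index
  have hfinq := finite_quotient_normOneUnits V hVopen
  have hfin : Finite (↥Uadd ⧸ A'') := by
    refine finite_quotient_of_map_add Uadd (addOf V)
      (fun a : ↥Uadd => (QuotientGroup.mk ⟨Additive.toMul (a : Additive Lˣ), a.2⟩ :
        ↥(normOneUnits L) ⧸ V.subgroupOf (normOneUnits L))) ?_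
    intro a b hab
    have := QuotientGroup.eq.mp hab
    rw [Subgroup.mem_subgroupOf] at this
    exact this
  have hFI : A''.FiniteIndex := AddSubgroup.finiteIndex_of_finite_quotient
  -- stability of `A''`
  have hf'' : ∀ x ∈ A'', PU.f x ∈ A'' := by
    intro x hx
    exact stable_f V hVstab g₀ _ hx
  have hg'' : ∀ x ∈ A'', PU.g x ∈ A'' := by
    intro x hx
    exact stable_g V hVstab g₀ _ hx
  set PV := PU.restrict A'' hf'' hg'' with hPV
  -- `Ĥ⁰ = 0`
  have hH0 : Subsingleton PV.H0 := by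
    apply subsingleton_H0_of_forall
    intro x hx
    have hx' : P.f ((x : ↥Uadd) : Additive Lˣ) = 0 := by
      have := congrArg (fun w : ↥A'' => ((w : ↥Uadd) : Additive Lˣ)) hx
      exact this
    have hfix := (cyclicPair_f_eq_zero_iff (rhoU K L) hg₀ _).mp hx'
    set u : Lˣ := Additive.toMul ((x : ↥Uadd) : Additive Lˣ) with hu
    have huV : u ∈ V := x.2
    have hfix' : ∀ σ : L ≃ₐ[K] L, σ (u : L) = u := by
      intro σ
      have := congrArg (fun w : Additive Lˣ => ((Additive.toMul w : Lˣ) : L)) (hfix σ)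
      exact this
    obtain ⟨y, hyV, hy⟩ := hVH0 u huV hfix'
    refine ⟨⟨⟨Additive.ofMul y, hVU hyV⟩, hyV⟩, ?_⟩
    apply Subtype.ext
    apply Subtype.ext
    change P.g (Additive.ofMul y) = _
    rw [hP, cyclicPair_g_apply, normHom_rhoU]
    have : normU K y = u := Units.ext (by rw [coe_normU, hy])
    rw [this]
    rfl
  -- `Ĥ¹ = 0`
  have hH1 : Subsingleton PV.H1 := by
    apply subsingleton_H1_of_forall
    intro x hx
    have hx' : P.g ((x : ↥Uadd) : Additive Lˣ) = 0 := by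
      have := congrArg (fun w : ↥A'' => ((w : ↥Uadd) : Additive Lˣ)) hx
      exact this
    set u : Lˣ := Additive.toMul ((x : ↥Uadd) : Additive Lˣ) with hu
    have huV : u ∈ V := x.2
    have hN : ∏ σ : L ≃ₐ[K] L, σ (u : L) = 1 := by
      rw [hP, cyclicPair_g_apply] at hx'
      have h1 : Additive.ofMul (normU K u) = 0 := by rw [← normHom_rhoU]; exact hx'
      have h2 : normU K u = 1 := h1
      rw [← coe_normU, h2, Units.val_one]
    obtain ⟨y, hyV, hy⟩ := hVH1 u huV hN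
    refine ⟨⟨⟨Additive.ofMul y, hVU hyV⟩, hyV⟩, ?_⟩
    apply Subtype.ext
    apply Subtype.ext
    change P.f (Additive.ofMul y) = _
    rw [hP, cyclicPair_f_rhoU]
    have : augU g₀ y = u := Units.ext (by rw [coe_augU, hy])
    rw [this]
    rfl
  have hPVdef : PV.IsDefined := isDefined_of_subsingleton PV hH0 hH1
  have hPVq : PV.q = 1 := q_of_subsingleton PV hH0 hH1
  have hPUdef : PU.IsDefined := (Pair.isDefined_restrict_iff PU A'' hf'' hg'').mp hPVdef
  refine ⟨hPUdef, ?_⟩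
  rw [← Pair.q_restrict PU A'' hf'' hg'' hPUdef]
  exact hPVq

/-- the trivial action on `ℤ` -/
def rhoZ : (L ≃ₐ[K] L) →* AddMonoid.End ℤ := 1

theorem rhoZ_apply (τ : L ≃ₐ[K] L) (x : ℤ) : rhoZ K L τ x = x := rfl

/-- **(H)** the Herbrand quotient of `Lˣ` for a cyclic extension of local fields is `[L:K]`. -/
theorem herbrand_units (hiso : ∀ (σ : L ≃ₐ[K] L) (x : L), ‖σ x‖ = ‖x‖)
    (g₀ : L ≃ₐ[K] L) (hg₀ : ∀ σ, σ ∈ Subgroup.zpowers g₀) :
    (cyclicPair (rhoU K L) g₀).IsDefined ∧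
      (cyclicPair (rhoU K L) g₀).q = Nat.card (L ≃ₐ[K] L) := by
  obtain ⟨ϖ, h0, h1, hdisc⟩ := exists_uniformizer L
  have hUstab : ∀ (σ : L ≃ₐ[K] L) (u : Lˣ), u ∈ normOneUnits L →
      Units.map (σ : L →* L) u ∈ normOneUnits L := by
    intro σ u hu
    rw [mem_normOneUnits] at hu ⊢
    rw [Units.coe_map]
    exact (hiso σ u).trans hu
  have hfU := stable_f (normOneUnits L) hUstab g₀
  have hgU := stable_g (normOneUnits L) hUstab g₀
  obtain ⟨hPUdef, hPUq⟩ := herbrand_normOneUnits K L hiso g₀ hg₀ hfU hgU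
  set P := cyclicPair (rhoU K L) g₀ with hP
  set R := cyclicPair (rhoZ K L) g₀ with hR
  have hRdef : R.IsDefined := isDefined_of_trivial_int (rhoZ K L) g₀ (rhoZ_apply K L)
    (AddEquiv.refl ℤ)
  have hRq : R.q = Nat.card (L ≃ₐ[K] L) := q_of_trivial_int (rhoZ K L) g₀ (rhoZ_apply K L)
    (AddEquiv.refl ℤ)
  have hord_rho : ∀ (σ : L ≃ₐ[K] L) (x : Additive Lˣ),
      ordHom ϖ hdisc h0 h1 (rhoU K L σ x) = ordHom ϖ hdisc h0 h1 x := by
    intro σ x
    apply ordHom_eq_of_norm_eq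
    exact hiso σ _
  let S : Pair.SES (P.restrict (addOf (normOneUnits L)) hfU hgU) P R :=
    { i := ⟨(addOf (normOneUnits L)).subtype, fun _ => rfl, fun _ => rfl⟩
      p := ⟨ordHom ϖ hdisc h0 h1, by
          intro x
          rw [hR, cyclicPair_f_of_trivial (rhoZ K L) g₀ (rhoZ_apply K L), hP, cyclicPair_f_apply,
            map_sub, hord_rho, sub_self], by
          intro x
          rw [hR, cyclicPair_g_of_trivial (rhoZ K L) g₀ (rhoZ_apply K L), hP, cyclicPair_g_apply,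
            HerbrandCyclic54.normHom_apply, map_sum]
          simp_rw [hord_rho]
          rw [Finset.sum_const, Finset.card_univ]⟩
      inj := (addOf (normOneUnits L)).subtype_injective
      surj := ordHom_surjective ϖ hdisc h0 h1
      exact := by
        intro b
        change ordHom ϖ hdisc h0 h1 b = 0 ↔ _
        rw [ordHom_eq_zero_iff]
        constructor
        · intro hb
          exact ⟨⟨b, hb⟩, rfl⟩
        · rintro ⟨a, rfl⟩
          exact a.2 }
  refine ⟨S.isDefined_mid hPUdef hRdef, ?_⟩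
  rw [S.q_mul hPUdef hRdef, hPUq, hRq, one_mul]

/-- `|Ĥ⁰(G, Lˣ)| = [L:K]` -/
theorem card_H0_units (hiso : ∀ (σ : L ≃ₐ[K] L) (x : L), ‖σ x‖ = ‖x‖)
    (g₀ : L ≃ₐ[K] L) (hg₀ : ∀ σ, σ ∈ Subgroup.zpowers g₀) :
    Nat.card (cyclicPair (rhoU K L) g₀).H0 = Nat.card (L ≃ₐ[K] L) := by
  obtain ⟨hdef, hq⟩ := herbrand_units K L hiso g₀ hg₀
  have h1 := subsingleton_H1_units (K := K) (L := L) g₀ hg₀
  unfold Pair.q at hq
  rw [Nat.card_unique (α := (cyclicPair (rhoU K L) g₀).H1)] at hq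
  have : ((Nat.card (cyclicPair (rhoU K L) g₀).H0 : ℕ) : ℚ) = (Nat.card (L ≃ₐ[K] L) : ℚ) := by
    simpa using hq
  exact_mod_cast this

end Main

end Fermat.Agent.S55.LocH76
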