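import Mathlib

/-!
# 14-LOC-H: Galois automorphisms are isometries (uniqueness of the extension of the norm)

Convenience lemmas discharging the hypothesis `hiso` of `norm_index` / `herbrand_units`.
-/

namespace Fermat.Agent.S55.LocH76

/-- over a complete ultrametric base field, algebra automorphisms of an algebraic normed
extension are isometries -/
theorem norm_algEquiv_apply {F L : Type*} [NontriviallyNormedField F] [IsUltrametricDist F]
    [CompleteSpace F] [NormedField L] [NormedAlgebra F L] [Algebra.IsAlgebraic F L]
    (σ : L ≃ₐ[F] L) (x : L) : ‖σ x‖ = ‖x‖ := by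
  rw [NormedAlgebra.norm_eq_spectralNorm F, NormedAlgebra.norm_eq_spectralNorm F,
    ← spectralNorm_eq_of_equiv]

/-- the same for automorphisms over an intermediate field `K` -/
theorem norm_algEquiv_apply_of_tower {F K L : Type*} [NontriviallyNormedField F]
    [IsUltrametricDist F] [CompleteSpace F] [Field K] [NormedField L] [NormedAlgebra F L]
    [Algebra.IsAlgebraic F L] [Algebra F K] [Algebra K L] [IsScalarTower F K L]
    (σ : L ≃ₐ[K] L) (x : L) : ‖σ x‖ = ‖x‖ :=
  norm_algEquiv_apply (σ.restrictScalars F) x

end Fermat.Agent.S55.LocH76
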