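import Mathlib

/-!
# 14-LOC-H, part (L): the normal-basis lattice in a normed Galois extension

`L/K` finite Galois, `L` an ultrametric normed field on which `Gal(L/K)` acts by isometries.
`coord x σ` is the `σ`-th coordinate of `x` in the normal basis `σ ↦ σ θ`; `cn x σ` its norm.
`A r` is the additive subgroup of all `x` whose coordinates have norm `≤ r`.
-/

set_option linter.unusedSectionVars false

namespace Fermat.Agent.S55.LocH76

open IsUltrametricDist Finset

section Coord

variable (K L : Type*) [Field K] [Field L] [Algebra K L] [FiniteDimensional K L] [IsGalois K L]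

/-- coordinates in the normal basis -/
noncomputable def coord (x : L) (σ : L ≃ₐ[K] L) : K :=
  (IsGalois.normalBasis K L).equivFun x σ

/-- the normal basis generator -/
noncomputable def theta : L := IsGalois.normalBasis K L 1

variable {K L}

theorem normalBasis_eq (σ : L ≃ₐ[K] L) : IsGalois.normalBasis K L σ = σ (theta K L) :=
  IsGalois.normalBasis_apply σ

theorem sum_coord (x : L) : ∑ σ : L ≃ₐ[K] L, coord K L x σ • σ (theta K L) = x := by
  have := (IsGalois.normalBasis K L).sum_equivFun x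
  conv_rhs => rw [← this]
  exact Finset.sum_congr rfl (fun σ _ => by rw [normalBasis_eq]; rfl)

theorem coord_eq_of_sum (c : (L ≃ₐ[K] L) → K) (x : L)
    (h : ∑ σ : L ≃ₐ[K] L, c σ • σ (theta K L) = x) (σ : L ≃ₐ[K] L) : coord K L x σ = c σ := by
  have h1 : (IsGalois.normalBasis K L).equivFun.symm c = x := by
    rw [Module.Basis.equivFun_symm_apply, ← h]
    exact Finset.sum_congr rfl (fun σ _ => by rw [normalBasis_eq])
  unfold coord
  rw [← h1, LinearEquiv.apply_symm_apply]

theorem coord_add (x y : L) (σ : L ≃ₐ[K] L) :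
    coord K L (x + y) σ = coord K L x σ + coord K L y σ := by
  simp [coord]

theorem coord_neg (x : L) (σ : L ≃ₐ[K] L) : coord K L (-x) σ = - coord K L x σ := by
  simp [coord]

theorem coord_sub (x y : L) (σ : L ≃ₐ[K] L) :
    coord K L (x - y) σ = coord K L x σ - coord K L y σ := by
  simp [coord]

theorem coord_zero (σ : L ≃ₐ[K] L) : coord K L (0 : L) σ = 0 := by
  simp [coord]

theorem coord_sum {ι : Type*} (s : Finset ι) (f : ι → L) (σ : L ≃ₐ[K] L) :
    coord K L (∑ i ∈ s, f i) σ = ∑ i ∈ s, coord K L (f i) σ := by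
  simp [coord]

/-- equivariance of coordinates -/
theorem coord_apply (τ : L ≃ₐ[K] L) (x : L) (σ : L ≃ₐ[K] L) :
    coord K L (τ x) σ = coord K L x (τ⁻¹ * σ) := by
  apply coord_eq_of_sum (fun σ => coord K L x (τ⁻¹ * σ))
  conv_rhs => rw [← sum_coord (K := K) x]
  rw [map_sum]
  simp_rw [map_smul]
  refine Fintype.sum_equiv (Equiv.mulLeft τ⁻¹) _ _ ?_
  intro σ
  simp only [Equiv.coe_mulLeft]
  congr 1
  rw [AlgEquiv.mul_apply]
  change _ = τ (τ.symm _)
  simp

open Classical in
/-- coordinates of `c • θ` -/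
theorem coord_smul_theta (c : K) (σ : L ≃ₐ[K] L) :
    coord K L (c • theta K L) σ = if σ = 1 then c else 0 := by
  classical
  apply coord_eq_of_sum (fun σ => if σ = 1 then c else 0)
  simp [Finset.sum_ite_eq']

/-- a fixed element has constant coordinates -/
theorem coord_const_of_fixed (x : L) (hx : ∀ τ : L ≃ₐ[K] L, τ x = x) (σ : L ≃ₐ[K] L) :
    coord K L x σ = coord K L x 1 := by
  have := coord_apply σ x σ
  rw [hx σ] at this
  rw [this]; simp

/-- coordinates of the trace -/
theorem coord_trace (x : L) (σ : L ≃ₐ[K] L) :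
    coord K L (∑ τ : L ≃ₐ[K] L, τ x) σ = ∑ ρ : L ≃ₐ[K] L, coord K L x ρ := by
  rw [coord_sum]
  simp_rw [coord_apply]
  exact Fintype.sum_equiv ((Equiv.inv _).trans (Equiv.mulRight σ)) _ _ (fun τ => by simp)

end Coord

section Norm

open scoped NNReal

variable (K L : Type*) [Field K] [NontriviallyNormedField L] [IsUltrametricDist L]
  [Algebra K L] [FiniteDimensional K L] [IsGalois K L]

/-- the Galois group acts by isometries -/
class IsoGal : Prop where
  norm_apply : ∀ (σ : L ≃ₐ[K] L) (x : L), ‖σ x‖ = ‖x‖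

/-- trace-dual of the normal basis -/
noncomputable def dualB : Module.Basis (L ≃ₐ[K] L) K L := by
  classical
  exact (Algebra.traceForm K L).dualBasis (traceForm_nondegenerate K L) (IsGalois.normalBasis K L)

/-- the norm of the normal basis generator -/
noncomputable def cT : ℝ≥0 := ‖theta K L‖₊

/-- the coordinate bound constant -/
noncomputable def cD : ℝ≥0 := 1 + ∑ σ : L ≃ₐ[K] L, ‖dualB K L σ‖₊

/-- the multiplication constant -/
noncomputable def cC : ℝ≥0 := cD K L * cT K L * cT K L

/-- the lattice of elements whose normal-basis coordinates have norm at most `r` -/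
def A (r : ℝ≥0) : AddSubgroup L where
  carrier := {x | ∀ σ : L ≃ₐ[K] L, ‖algebraMap K L (coord K L x σ)‖₊ ≤ r}
  zero_mem' := by intro σ; simp [coord_zero]
  add_mem' := by
    intro x y hx hy σ
    rw [coord_add, map_add]
    exact (nnnorm_add_le_max _ _).trans (max_le (hx σ) (hy σ))
  neg_mem' := by
    intro x hx σ
    rw [coord_neg, map_neg, nnnorm_neg]
    exact hx σ

variable {K L}

theorem mem_A {r : ℝ≥0} {x : L} :
    x ∈ A K L r ↔ ∀ σ : L ≃ₐ[K] L, ‖algebraMap K L (coord K L x σ)‖₊ ≤ r := Iff.rfl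

theorem A_mono {r s : ℝ≥0} (h : r ≤ s) : A K L r ≤ A K L s :=
  fun _ hx σ => (hx σ).trans h

theorem apply_mem_A (τ : L ≃ₐ[K] L) {x : L} {r : ℝ≥0} (hx : x ∈ A K L r) : τ x ∈ A K L r := by
  intro σ
  rw [coord_apply]
  exact hx _

theorem cD_one_le : 1 ≤ cD K L := by
  unfold cD; exact le_self_add

theorem nnnorm_apply [IsoGal K L] (σ : L ≃ₐ[K] L) (x : L) : ‖σ x‖₊ = ‖x‖₊ :=
  NNReal.eq (IsoGal.norm_apply σ x)

theorem nnnorm_le_of_mem_A [IsoGal K L] {x : L} {r : ℝ≥0} (hx : x ∈ A K L r) :
    ‖x‖₊ ≤ r * cT K L := by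
  rw [← sum_coord (K := K) x]
  apply nnnorm_sum_le_of_forall_le
  intro σ _
  rw [Algebra.smul_def, nnnorm_mul, nnnorm_apply]
  exact mul_le_mul_left (hx σ) _

theorem coord_eq_trace (x : L) (τ : L ≃ₐ[K] L) :
    coord K L x τ = Algebra.trace K L (x * dualB K L τ) := by
  classical
  have h := LinearMap.BilinForm.dualBasis_repr_apply (traceForm_nondegenerate K L)
    ((Algebra.traceForm K L).dualBasis (traceForm_nondegenerate K L) (IsGalois.normalBasis K L))
    x τ
  rw [LinearMap.BilinForm.dualBasis_dualBasis _ (Algebra.traceForm_isSymm K)] at h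
  unfold coord
  rw [Module.Basis.equivFun_apply, h, Algebra.traceForm_apply]
  congr!

theorem coord_bound [IsoGal K L] (x : L) (τ : L ≃ₐ[K] L) :
    ‖algebraMap K L (coord K L x τ)‖₊ ≤ cD K L * ‖x‖₊ := by
  rw [coord_eq_trace, trace_eq_sum_automorphisms]
  apply nnnorm_sum_le_of_forall_le
  intro σ _
  rw [nnnorm_apply, nnnorm_mul, mul_comm]
  apply mul_le_mul_left
  unfold cD
  refine le_add_of_nonneg_of_le zero_le_one ?_
  exact Finset.single_le_sum (f := fun σ => ‖dualB K L σ‖₊) (fun _ _ => zero_le) (Finset.mem_univ τ)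

theorem mem_A_of_nnnorm_le [IsoGal K L] {x : L} {r : ℝ≥0} (hx : cD K L * ‖x‖₊ ≤ r) :
    x ∈ A K L r := fun σ => (coord_bound x σ).trans hx

theorem mul_mem_A [IsoGal K L] {x y : L} {r s : ℝ≥0} (hx : x ∈ A K L r) (hy : y ∈ A K L s) :
    x * y ∈ A K L (cC K L * r * s) := by
  apply mem_A_of_nnnorm_le
  rw [nnnorm_mul]
  have h1 := nnnorm_le_of_mem_A hx
  have h2 := nnnorm_le_of_mem_A hy
  calc cD K L * (‖x‖₊ * ‖y‖₊) ≤ cD K L * ((r * cT K L) * (s * cT K L)) := by gcongr
    _ = cC K L * r * s := by unfold cC; ring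

end Norm

end Fermat.Agent.S55.LocH76
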