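import Fermat.Agent.S55.LocH76.Herbrand

/-!
# 14-LOC-H: the local norm index `[Kˣ : N_{L/K} Lˣ] = [L:K]` for cyclic extensions

Quotient-free consumer form of `card_H0_units`.
-/

set_option linter.unusedSectionVars false

namespace Fermat.Agent.S55.LocH76

open Fermat.Agent.S55.Herbrand54 Fermat.Agent.S55.HerbrandCyclic54

section Algebraic

variable (K L : Type*) [Field K] [Field L] [Algebra K L] [FiniteDimensional K L] [IsGalois K L]

/-- the norm on units -/
noncomputable def unitsNorm : Lˣ →* Kˣ := Units.map (Algebra.norm K : L →* K)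

variable {K L}

theorem coe_normU' (u : Lˣ) : ((normU K u : Lˣ) : L) = ∏ σ : L ≃ₐ[K] L, σ (u : L) := by
  unfold normU
  rw [MonoidHom.finsetProd_apply, Units.coe_prod]
  rfl

theorem coe_augU' (g₀ : L ≃ₐ[K] L) (u : Lˣ) : ((augU g₀ u : Lˣ) : L) = g₀ (u : L) / u := by
  unfold augU
  rw [MonoidHom.div_apply, Units.val_div_eq_div_val]
  rfl

theorem map_unitsNorm (u : Lˣ) :
    Units.map (algebraMap K L : K →* L) (unitsNorm K L u) = normU K u := by
  apply Units.ext
  rw [coe_normU']
  exact Algebra.norm_eq_prod_automorphisms K (u : L)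

theorem cyclicPair_f_map (g₀ : L ≃ₐ[K] L) (a : Kˣ) :
    (cyclicPair (rhoU K L) g₀).f (Additive.ofMul (Units.map (algebraMap K L : K →* L) a)) = 0 := by
  rw [cyclicPair_f_rhoU]
  have : augU g₀ (Units.map (algebraMap K L : K →* L) a) = 1 := by
    apply Units.ext
    rw [coe_augU', Units.coe_map, Units.val_one]
    change g₀ (algebraMap K L a) / algebraMap K L a = 1
    rw [AlgEquiv.commutes, div_self]
    exact (Units.map (algebraMap K L : K →* L) a).ne_zero
  rw [this]
  rfl

/-- the comparison map `Kˣ → Ĥ⁰(G, Lˣ)` -/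
noncomputable def toH0 (g₀ : L ≃ₐ[K] L) : Kˣ →* Multiplicative (cyclicPair (rhoU K L) g₀).H0 :=
  MonoidHom.mk' (fun a => Multiplicative.ofAdd
    ((cyclicPair (rhoU K L) g₀).cls (Additive.ofMul (Units.map (algebraMap K L : K →* L) a))
      (cyclicPair_f_map g₀ a))) (by
    intro a b
    rw [← ofAdd_add, ← Pair.cls_add]
    congr 1
    simp only [map_mul]
    rfl)

theorem toH0_surjective (g₀ : L ≃ₐ[K] L) (hg₀ : ∀ σ, σ ∈ Subgroup.zpowers g₀) :
    Function.Surjective (toH0 (K := K) (L := L) g₀) := by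
  intro z
  obtain ⟨x, hx, hz⟩ := (cyclicPair (rhoU K L) g₀).cls_surj (Multiplicative.toAdd z)
  have hfix := (cyclicPair_f_eq_zero_iff (rhoU K L) hg₀ x).mp hx
  set u : Lˣ := Additive.toMul x with hu
  have hfix' : ∀ σ : L ≃ₐ[K] L, σ (u : L) = u := by
    intro σ
    have := congrArg (fun w : Additive Lˣ => ((Additive.toMul w : Lˣ) : L)) (hfix σ)
    exact this
  obtain ⟨a, ha⟩ := (IsGalois.mem_range_algebraMap_iff_fixed (F := K) (u : L)).mpr hfix'
  have ha0 : a ≠ 0 := by
    intro h0
    rw [h0, map_zero] at ha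
    exact u.ne_zero ha.symm
  refine ⟨Units.mk0 a ha0, ?_⟩
  apply Multiplicative.toAdd.injective
  rw [← hz]
  change (cyclicPair (rhoU K L) g₀).cls _ _ = _
  congr 1
  change Additive.ofMul _ = Additive.ofMul u
  congr 1
  apply Units.ext
  rw [Units.coe_map]
  exact ha

theorem toH0_ker (g₀ : L ≃ₐ[K] L) :
    (toH0 (K := K) (L := L) g₀).ker = (unitsNorm K L).range := by
  ext a
  rw [MonoidHom.mem_ker, MonoidHom.mem_range]
  change Multiplicative.ofAdd ((cyclicPair (rhoU K L) g₀).cls _ _) = 1 ↔ _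
  rw [← ofAdd_zero, Multiplicative.ofAdd.injective.eq_iff, Pair.cls_eq_zero_iff]
  constructor
  · rintro ⟨y, hy⟩
    refine ⟨Additive.toMul y, ?_⟩
    have h1 : Additive.ofMul (normU K (Additive.toMul y)) =
        Additive.ofMul (Units.map (algebraMap K L : K →* L) a) := by
      rw [← normHom_rhoU]; exact hy
    have h2 : normU K (Additive.toMul y) = Units.map (algebraMap K L : K →* L) a := h1
    rw [← map_unitsNorm] at h2
    apply Units.ext
    have h3 := congrArg (fun w : Lˣ => (w : L)) h2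
    simp only [Units.coe_map] at h3
    exact (algebraMap K L).injective h3
  · rintro ⟨u, rfl⟩
    refine ⟨Additive.ofMul u, ?_⟩
    rw [cyclicPair_g_apply, normHom_rhoU, map_unitsNorm]

theorem card_quotient_unitsNorm (g₀ : L ≃ₐ[K] L) (hg₀ : ∀ σ, σ ∈ Subgroup.zpowers g₀) :
    Nat.card (Kˣ ⧸ (unitsNorm K L).range) = Nat.card (cyclicPair (rhoU K L) g₀).H0 := by
  rw [← toH0_ker g₀]
  rw [Nat.card_congr (QuotientGroup.quotientKerEquivOfSurjective _
    (toH0_surjective g₀ hg₀)).toEquiv]
  exact Nat.card_congr Multiplicative.toAdd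

end Algebraic

section Main

variable (K L : Type*) [Field K] [NontriviallyNormedField L] [IsUltrametricDist L] [ProperSpace L]
  [Algebra K L] [FiniteDimensional K L] [IsGalois K L]

/-- **Local norm index** for a cyclic extension: `[Kˣ : N_{L/K} Lˣ] = [L:K]`. -/
theorem norm_index (hiso : ∀ (σ : L ≃ₐ[K] L) (x : L), ‖σ x‖ = ‖x‖)
    (g₀ : L ≃ₐ[K] L) (hg₀ : ∀ σ, σ ∈ Subgroup.zpowers g₀) :
    (Units.map (Algebra.norm K : L →* K)).range.index = Module.finrank K L := by
  rw [Subgroup.index_eq_card]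
  have := card_quotient_unitsNorm (K := K) (L := L) g₀ hg₀
  unfold unitsNorm at this
  rw [this, card_H0_units K L hiso g₀ hg₀, IsGalois.card_aut_eq_finrank]

/-- the same with `IsCyclic` instead of an explicit generator -/
theorem norm_index_of_isCyclic [IsCyclic (L ≃ₐ[K] L)]
    (hiso : ∀ (σ : L ≃ₐ[K] L) (x : L), ‖σ x‖ = ‖x‖) :
    (Units.map (Algebra.norm K : L →* K)).range.index = Module.finrank K L := by
  obtain ⟨g₀, hg₀⟩ := IsCyclic.exists_generator (α := L ≃ₐ[K] L)
  exact norm_index K L hiso g₀ hg₀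

end Main

end Fermat.Agent.S55.LocH76
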