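import Fermat.Agent.S55.LocH76.Lattice
import Fermat.Agent.S55.LocH76.Cyclic

/-!
# 14-LOC-H, part (M): the multiplicative groups `1 + A r`

For `r` small (`Small K L ρ r`) the set `1 + A r` is a Galois-stable subgroup of `Lˣ`, and
`(1 + A r)/(1 + A (r ρ)) ≅ A r / A (r ρ)` is an induced module; we prove the two graded
exactness statements in elementary form.
-/

set_option linter.unusedSectionVars false

namespace Fermat.Agent.S55.LocH76

open IsUltrametricDist Finset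
open scoped NNReal

variable (K L : Type*) [Field K] [NontriviallyNormedField L] [IsUltrametricDist L]
  [Algebra K L] [FiniteDimensional K L] [IsGalois K L]

/-- smallness of the radius `r` relative to the contraction factor `ρ` -/
structure Small (ρ r : ℝ≥0) : Prop where
  rho_le : ρ ≤ 1
  c1 : cC K L * r ≤ ρ
  c2 : r * cT K L < 1
  c3 : cC K L * cD K L * cT K L * r ≤ 1

variable {K L}

theorem Small.mono {ρ r r' : ℝ≥0} (h : Small K L ρ r) (hr : r' ≤ r) : Small K L ρ r' where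
  rho_le := h.rho_le
  c1 := (mul_le_mul_right hr _).trans h.c1
  c2 := lt_of_le_of_lt (mul_le_mul_left hr _) h.c2
  c3 := (mul_le_mul_right hr _).trans h.c3

theorem Small.mul_rho {ρ r : ℝ≥0} (h : Small K L ρ r) : Small K L ρ (r * ρ) :=
  h.mono (by calc r * ρ ≤ r * 1 := mul_le_mul_right h.rho_le _
    _ = r := mul_one r)

theorem Small.mul_rho_pow {ρ r : ℝ≥0} (h : Small K L ρ r) (j : ℕ) : Small K L ρ (r * ρ ^ j) :=
  h.mono (by calc r * ρ ^ j ≤ r * 1 := mul_le_mul_right (pow_le_one₀ zero_le h.rho_le) _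
    _ = r := mul_one r)

variable [IsoGal K L]

theorem Small.cC_mul_le_one {ρ r : ℝ≥0} (h : Small K L ρ r) : cC K L * r ≤ 1 :=
  h.c1.trans h.rho_le

/-- products of two elements of `A r` land in `A (r ρ)` -/
theorem mul_mem_A_rho {ρ r : ℝ≥0} (h : Small K L ρ r) {x y : L} (hx : x ∈ A K L r)
    (hy : y ∈ A K L r) : x * y ∈ A K L (r * ρ) := by
  refine A_mono ?_ (mul_mem_A hx hy)
  calc cC K L * r * r ≤ ρ * r := mul_le_mul_left h.c1 _
    _ = r * ρ := mul_comm _ _

theorem mul_mem_A_of_small {ρ r s : ℝ≥0} (h : Small K L ρ r) {z w : L} (hz : z ∈ A K L s)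
    (hw : w ∈ A K L r) : z * w ∈ A K L s := by
  refine A_mono ?_ (mul_mem_A hz hw)
  calc cC K L * s * r = (cC K L * r) * s := by ring
    _ ≤ 1 * s := mul_le_mul_left h.cC_mul_le_one _
    _ = s := one_mul s

theorem nnnorm_lt_one_of_mem_A {ρ r : ℝ≥0} (h : Small K L ρ r) {x : L} (hx : x ∈ A K L r) :
    ‖x‖₊ < 1 := lt_of_le_of_lt (nnnorm_le_of_mem_A hx) h.c2

theorem norm_eq_one_of_sub_one_mem {ρ r : ℝ≥0} (h : Small K L ρ r) {u : L}
    (hu : u - 1 ∈ A K L r) : ‖u‖ = 1 := by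
  have h1 : ‖u - 1‖ < 1 := by
    have := nnnorm_lt_one_of_mem_A h hu
    exact_mod_cast this
  have h2 : ‖u - 1‖ ≠ ‖(1 : L)‖ := by rw [norm_one]; exact ne_of_lt h1
  have h3 := norm_add_eq_max_of_norm_ne_norm h2
  rw [sub_add_cancel, norm_one] at h3
  rw [h3]; exact max_eq_right h1.le

theorem ne_zero_of_sub_one_mem {ρ r : ℝ≥0} (h : Small K L ρ r) {u : L}
    (hu : u - 1 ∈ A K L r) : u ≠ 0 := by
  intro h0
  have := norm_eq_one_of_sub_one_mem h hu
  rw [h0, norm_zero] at this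
  exact zero_ne_one this

/-- (V3) multiplicativity modulo the next step -/
theorem mul_sub_one_mem {ρ r : ℝ≥0} (h : Small K L ρ r) {a b : L} (ha : a - 1 ∈ A K L r)
    (hb : b - 1 ∈ A K L r) :
    a * b - 1 ∈ A K L r ∧ a * b - 1 - ((a - 1) + (b - 1)) ∈ A K L (r * ρ) := by
  have h1 : (a - 1) * (b - 1) ∈ A K L (r * ρ) := mul_mem_A_rho h ha hb
  have h2 : a * b - 1 - ((a - 1) + (b - 1)) = (a - 1) * (b - 1) := by ring
  refine ⟨?_, h2 ▸ h1⟩
  have h3 : a * b - 1 = (a - 1) + (b - 1) + (a - 1) * (b - 1) := by ring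
  rw [h3]
  exact (A K L r).add_mem ((A K L r).add_mem ha hb)
    (A_mono (by calc r * ρ ≤ r * 1 := mul_le_mul_right h.rho_le _
      _ = r := mul_one r) h1)

/-- (V4) inverses -/
theorem inv_sub_one_mem {ρ r : ℝ≥0} (h : Small K L ρ r) {u : L} (hu : u - 1 ∈ A K L r) :
    u⁻¹ - 1 ∈ A K L r := by
  have hu0 : u ≠ 0 := ne_zero_of_sub_one_mem h hu
  have hnu : ‖u‖ = 1 := norm_eq_one_of_sub_one_mem h hu
  set x := u - 1 with hx
  set w := u⁻¹ - 1 with hw
  have hwx : w = -x - x * w := by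
    rw [hw, hx]; field_simp; ring
  have hnw : ‖w‖₊ = ‖x‖₊ := by
    have : w = -x * u⁻¹ := by rw [hw, hx]; field_simp; ring
    rw [this, nnnorm_mul, nnnorm_neg, nnnorm_inv]
    have : ‖u‖₊ = 1 := NNReal.eq hnu
    rw [this, inv_one, mul_one]
  have hw1 : w ∈ A K L (cD K L * (r * cT K L)) := by
    apply mem_A_of_nnnorm_le
    rw [hnw]
    exact mul_le_mul_right (nnnorm_le_of_mem_A hu) _
  have hxw : x * w ∈ A K L r := by
    refine A_mono ?_ (mul_mem_A hu hw1)
    calc cC K L * r * (cD K L * (r * cT K L))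
        = (cC K L * cD K L * cT K L * r) * r := by ring
      _ ≤ 1 * r := mul_le_mul_left h.c3 _
      _ = r := one_mul r
  rw [hwx]
  exact (A K L r).sub_mem ((A K L r).neg_mem hu) hxw

/-- (V6) congruence in quotient form -/
theorem div_sub_one_mem {ρ r s : ℝ≥0} (h : Small K L ρ r) {a b : L}
    (hb : b - 1 ∈ A K L r) (hab : a - b ∈ A K L s) : a / b - 1 ∈ A K L s := by
  have hb0 : b ≠ 0 := ne_zero_of_sub_one_mem h hb
  have h1 : a / b - 1 = (a - b) + (a - b) * (b⁻¹ - 1) := by field_simp; ring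
  rw [h1]
  exact (A K L s).add_mem hab (mul_mem_A_of_small h hab (inv_sub_one_mem h hb))

/-- (V7) norm versus trace -/
theorem prod_sub_one_mem {ρ r : ℝ≥0} (h : Small K L ρ r) {u : L} (hu : u - 1 ∈ A K L r)
    (s : Finset (L ≃ₐ[K] L)) :
    (∏ σ ∈ s, σ u) - 1 ∈ A K L r ∧
      (∏ σ ∈ s, σ u) - 1 - ∑ σ ∈ s, σ (u - 1) ∈ A K L (r * ρ) := by
  classical
  induction s using Finset.induction_on with
  | empty => simp
  | insert a s ha ih =>
    rw [Finset.prod_insert ha, Finset.sum_insert ha]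
    have h1 : a u - 1 ∈ A K L r := by
      have := apply_mem_A a hu
      rwa [map_sub, map_one] at this
    obtain ⟨h2, h3⟩ := mul_sub_one_mem h h1 ih.1
    refine ⟨h2, ?_⟩
    have h4 : a u * ∏ σ ∈ s, σ u - 1 - (a (u - 1) + ∑ σ ∈ s, σ (u - 1)) =
        (a u * ∏ σ ∈ s, σ u - 1 - ((a u - 1) + ((∏ σ ∈ s, σ u) - 1))) +
          ((∏ σ ∈ s, σ u) - 1 - ∑ σ ∈ s, σ (u - 1)) := by
      rw [map_sub, map_one]; ring
    rw [h4]
    exact (A K L _).add_mem h3 ih.2

/-- the ball of radius `r` in `K` (for the norm induced from `L`) -/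
def ballK (K L : Type*) [Field K] [NontriviallyNormedField L] [IsUltrametricDist L]
    [Algebra K L] (r : ℝ≥0) : AddSubgroup K where
  carrier := {a | ‖algebraMap K L a‖₊ ≤ r}
  zero_mem' := by simp
  add_mem' := by
    intro a b ha hb
    simp only [Set.mem_ofPred_eq, map_add] at *
    exact (nnnorm_add_le_max _ _).trans (max_le ha hb)
  neg_mem' := by
    intro a ha
    simp only [Set.mem_ofPred_eq, map_neg, nnnorm_neg] at *
    exact ha

/-- graded exactness for `Ĥ⁰` -/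
theorem graded_H0 {ρ r : ℝ≥0} (h : Small K L ρ r) {u : L} (hu : u - 1 ∈ A K L r)
    (hfix : ∀ τ : L ≃ₐ[K] L, τ u = u) :
    ∃ y : L, y - 1 ∈ A K L r ∧ u - ∏ σ : L ≃ₐ[K] L, σ y ∈ A K L (r * ρ) := by
  classical
  set x := u - 1 with hx
  have hxfix : ∀ τ : L ≃ₐ[K] L, τ x = x := by
    intro τ; rw [hx, map_sub, map_one, hfix]
  set c₀ := coord K L x 1 with hc₀
  set y₀ := c₀ • theta K L with hy₀
  have hy₀A : y₀ ∈ A K L r := by
    intro σ
    rw [hy₀, coord_smul_theta]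
    split_ifs
    · exact hu 1
    · simp
  refine ⟨1 + y₀, by simpa using hy₀A, ?_⟩
  have h1 := (prod_sub_one_mem h (u := 1 + y₀) (by simpa using hy₀A) Finset.univ).2
  have h2 : ∑ σ : L ≃ₐ[K] L, σ (1 + y₀ - 1) = x := by
    conv_rhs => rw [← sum_coord (K := K) x]
    refine Finset.sum_congr rfl (fun σ _ => ?_)
    rw [add_sub_cancel_left, hy₀, map_smul, coord_const_of_fixed x hxfix σ]
  rw [h2] at h1
  have h3 : u - ∏ σ : L ≃ₐ[K] L, σ (1 + y₀) = -((∏ σ : L ≃ₐ[K] L, σ (1 + y₀)) - 1 - x) := by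
    rw [hx]; ring
  rw [h3]
  exact (A K L _).neg_mem h1

/-- graded exactness for `Ĥ¹` (cyclic group with generator `g₀`) -/
theorem graded_H1 (g₀ : L ≃ₐ[K] L) (hg₀ : ∀ σ, σ ∈ Subgroup.zpowers g₀) {ρ r : ℝ≥0}
    (h : Small K L ρ r) {u : L} (hu : u - 1 ∈ A K L r)
    (hN : ∏ σ : L ≃ₐ[K] L, σ u = 1) :
    ∃ y : L, y - 1 ∈ A K L r ∧ u - g₀ y / y ∈ A K L (r * ρ) := by
  classical
  set x := u - 1 with hx
  have hrρ : r * ρ ≤ r := by
    calc r * ρ ≤ r * 1 := mul_le_mul_right h.rho_le _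
      _ = r := mul_one r
  -- the trace of `x` is small
  have hTr : ∑ σ : L ≃ₐ[K] L, σ x ∈ A K L (r * ρ) := by
    have h1 := (prod_sub_one_mem h hu Finset.univ).2
    rw [hN, sub_self, zero_sub] at h1
    exact (AddSubgroup.neg_mem_iff _).mp h1
  set s := ∑ τ : L ≃ₐ[K] L, coord K L x τ with hs
  have hsn : ‖algebraMap K L s‖₊ ≤ r * ρ := by
    have := hTr 1
    rwa [coord_trace] at this
  -- modified coordinates with total sum zero
  let c' : (L ≃ₐ[K] L) → K := fun σ => coord K L x σ - (if σ = 1 then s else 0)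
  have hc'S : ∀ σ, c' σ ∈ ballK K L r := by
    intro σ
    refine (ballK K L r).sub_mem (hu σ) ?_
    split_ifs
    · exact hsn.trans hrρ
    · exact (ballK K L r).zero_mem
  have hc'sum : ∑ σ, c' σ = 0 := by
    simp only [c', Finset.sum_sub_distrib, Finset.sum_ite_eq', Finset.mem_univ, if_true]
    rw [← hs, sub_self]
  obtain ⟨d, hdS, hd⟩ := exists_cyclic_primitive g₀ hg₀ (ballK K L r) c' hc'S hc'sum
  set m' := ∑ σ : L ≃ₐ[K] L, d σ • σ (theta K L) with hm'
  have hcm' : ∀ σ, coord K L m' σ = d σ := coord_eq_of_sum d m' rfl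
  have hm'A : m' ∈ A K L r := by
    intro σ; rw [hcm']; exact hdS σ
  have hgm'A : g₀ m' - m' ∈ A K L r := (A K L r).sub_mem (apply_mem_A g₀ hm'A) hm'A
  -- `x - (g₀ m' - m')` has only one nonzero coordinate, which is small
  have hdiff : x - (g₀ m' - m') ∈ A K L (r * ρ) := by
    intro σ
    rw [coord_sub x (g₀ m' - m'), coord_sub (g₀ m') m', coord_apply, hcm', hcm', hd σ]
    simp only [c']
    rw [sub_sub_cancel]
    split_ifs
    · exact hsn
    · simp
  have hy : (1 + m') - 1 ∈ A K L r := by simpa using hm'A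
  refine ⟨1 + m', hy, ?_⟩
  have hy0 : (1 + m') ≠ 0 := ne_zero_of_sub_one_mem h hy
  have hinv := inv_sub_one_mem h hy
  have hprod : (g₀ m' - m') * ((1 + m')⁻¹ - 1) ∈ A K L (r * ρ) := mul_mem_A_rho h hgm'A hinv
  have key : u - g₀ (1 + m') / (1 + m') =
      (x - (g₀ m' - m')) - (g₀ m' - m') * ((1 + m')⁻¹ - 1) := by
    rw [hx, map_add, map_one]
    field_simp
    ring
  rw [key]
  exact (A K L _).sub_mem hdiff hprod

end Fermat.Agent.S55.LocH76
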